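import Fermat.Agent.Specialization.SeriesModel
import Fermat.Agent.Hecke.Degree

/-!
# The norm identity on the special fibre

The Hecke norm `N_α (β f)` of a function with residue `y` reduces to `(φ y) * (φ⁻¹ y) ^ ℓ`, where
`φ` is the Frobenius of the coefficients.
-/

set_option autoImplicit false

noncomputable section

open AlgebraicCurve ModularCurve
open Fermat.Agent.ModularFunctionField (twist)

namespace Fermat.Agent.Specialization

local notation "ℚbar" => AlgebraicClosure ℚ

section Twists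

variable {R S : Type*} [CommRing R] [CommRing S] (ℓ : ℕ) [NeZero ℓ]

/-- `y(q^ℓ²) ∏_{i<ℓ} y(uⁱ q)`. -/
def normSeries (u : Rˣ) : LaurentSeries R →* LaurentSeries R where
  toFun y := qExpand R (ℓ * ℓ) y * ∏ i ∈ Finset.range ℓ, twist (u ^ i) y
  map_one' := by simp
  map_mul' x y := by
    simp only [map_mul, Finset.prod_mul_distrib]
    ring

/-- The defining product of `normSeries`. -/
theorem normSeries_apply (u : Rˣ) (y : LaurentSeries R) :
    normSeries ℓ u y = qExpand R (ℓ * ℓ) y * ∏ i ∈ Finset.range ℓ, twist (u ^ i) y :=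
  rfl

/-- `normSeries` commutes with coefficient maps. -/
theorem coeffMap_normSeries (f : R →+* S) (u : Rˣ) (y : LaurentSeries R) :
    coeffMap f (normSeries ℓ u y) = normSeries ℓ (Units.map (f : R →* S) u) (coeffMap f y) := by
  simp only [normSeries_apply, map_mul, map_prod, ModularFunctionField.coeffMap_qExpand',
    ModularFunctionField.coeffMap_twist, map_pow]

theorem normSeries_one (y : LaurentSeries R) :
    normSeries ℓ (1 : Rˣ) y = qExpand R (ℓ * ℓ) y * y ^ ℓ := by
  simp [normSeries_apply]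

end Twists

section Roots

variable {L : Type*} [Field L] (A : ValuationSubring L)

/-- Roots of unity are units of the valuation ring. -/
theorem exists_unit_val_eq {z : Lˣ} {n : ℕ} (hn : n ≠ 0) (hz : z ^ n = 1) :
    ∃ u : Aˣ, Units.map (A.subtype : A →* L) u = z ∧ u ^ n = 1 := by
  have hmem : ∀ w : Lˣ, w ^ n = 1 → (w : L) ∈ A := by
    intro w hw
    rcases A.mem_or_inv_mem (w : L) with h | h
    · exact h
    · have hw' : ((w : L)⁻¹) ^ (n - 1) = (w : L) := by
        have h1 : (w : L) ^ (n - 1) * (w : L) = 1 := by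
          rw [← pow_succ, Nat.sub_add_cancel (Nat.one_le_iff_ne_zero.mpr hn), ← Units.val_pow_eq_pow_val,
            hw, Units.val_one]
        rw [inv_pow]
        exact (eq_inv_of_mul_eq_one_right h1).symm
      exact hw' ▸ pow_mem h (n - 1)
  refine ⟨⟨⟨(z : L), hmem z hz⟩, ⟨((z⁻¹ : Lˣ) : L), hmem z⁻¹ (by rw [inv_pow, hz, inv_one])⟩,
    Subtype.ext (Units.mul_inv z), Subtype.ext (Units.inv_mul z)⟩, Units.ext rfl, ?_⟩
  refine Units.ext (Subtype.ext ?_)
  have := congrArg Units.val hz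
  simpa using this

end Roots

variable {A : ValuationSubring (AlgebraicClosure ℚ)} {M : ℕ} {k : Type*} [Field k] {π : A →+* k}
variable {red : GoodReduction.Reduction (modularFunctionFieldBar M)
  (modularFunctionFieldFullC k M) A π}

/-- The reduced norm identity. -/
theorem IsSeriesReduction.exists_norm_reduction (hred : IsSeriesReduction red) {N : ℕ} [NeZero N]
    (ι : modularFunctionFieldBar N →ₐ[ℚbar] modularFunctionFieldBar M)
    (hι : ∀ f, (ι f : LaurentSeries ℚbar) = (f : LaurentSeries ℚbar))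
    {ℓ : ℕ} [NeZero ℓ] [CharP k ℓ] (hℓ : ℓ.Prime) (hN : ¬ ℓ ∣ N) (τ : k ≃+* k)
    (hτ : ∀ a, τ a = a ^ ℓ) (f : modularFunctionFieldBar N) (x : red.V)
    (hx : (x : modularFunctionFieldBar M) = ι f) (hx0 : red.res x ≠ 0) :
    ∃ x' : red.V, (x' : modularFunctionFieldBar M) = ι (Hecke.heckeNorm ℚbar N ℓ f) ∧
      red.res x' = (coeffAut M τ • red.res x) * ((coeffAut M τ)⁻¹ • red.res x) ^ ℓ := by
  have : Fact ℓ.Prime := ⟨hℓ⟩
  have : NeZero ((ℓ : ℕ) : ℚbar) := ⟨Nat.cast_ne_zero.mpr (NeZero.ne ℓ)⟩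
  have : ExpChar k ℓ := ExpChar.prime hℓ
  obtain ⟨z₀, hz₀⟩ := HasEnoughRootsOfUnity.exists_primitiveRoot ℚbar ℓ
  obtain ⟨z, rfl⟩ := hz₀.isUnit (NeZero.ne ℓ)
  replace hz₀ := IsPrimitiveRoot.coe_units_iff.mp hz₀
  obtain ⟨u, hu, huℓ⟩ := exists_unit_val_eq A (NeZero.ne ℓ) hz₀.pow_eq_one
  have hπu : Units.map (π : A →* k) u = 1 := by
    refine Units.ext (sub_eq_zero.mp ((pow_eq_zero_iff (NeZero.ne ℓ)).mp ?_))
    rw [Units.val_one, sub_pow_expChar, one_pow, ← Units.val_pow_eq_pow_val, ← map_pow, huℓ,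
      map_one, Units.val_one, sub_self]
  set T : LaurentSeries k →* LaurentSeries k :=
    (coeffMap τ.toRingHom).toMonoidHom * (coeffMap τ.symm.toRingHom).toMonoidHom ^ ℓ with hT
  have hTap : ∀ y, T y = coeffMap τ.toRingHom y * coeffMap τ.symm.toRingHom y ^ ℓ := fun y => by
    simp [hT]
  have hπn : ∀ y : LaurentSeries A,
      coeffMap π (normSeries ℓ u y) = qExpand k ℓ (T (coeffMap π y)) := fun y => by
    rw [coeffMap_normSeries, hπu, normSeries_one, hTap, qExpand_frobenius_identity τ ℓ hτ]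
  obtain ⟨y₁, y₂, hy₁, hy₂, hy₂0, hy⟩ := hred.exists_quot x
  have hres := hred.res_mul_eq x hy₁ hy₂ hy
  rw [hx, hι] at hy
  have hr0 : (red.res x : LaurentSeries k) ≠ 0 := fun h => hx0 (Subtype.ext h)
  have hy₁0 : coeffMap π y₁ ≠ 0 := hres ▸ mul_ne_zero hr0 hy₂0
  set ν : LaurentSeries ℚbar := (Hecke.heckeNorm ℚbar N ℓ f : LaurentSeries ℚbar) with hν
  have hid : qExpand ℚbar ℓ ν * coeffMap A.subtype (normSeries ℓ u y₂)
      = coeffMap A.subtype (normSeries ℓ u y₁) := by
    rw [hν, Hecke.qExpand_heckeNorm N ℓ hℓ hN hz₀, coeffMap_normSeries, coeffMap_normSeries, hu,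
      ← normSeries_apply, ← map_mul, hy]
  have hTne : ∀ y, y ≠ 0 → T y ≠ 0 := fun y h => by
    rw [hTap]
    exact mul_ne_zero
      ((map_ne_zero_iff _ (ModularFunctionField.coeffMap_injective _ τ.injective)).mpr h)
      (pow_ne_zero _
        ((map_ne_zero_iff _ (ModularFunctionField.coeffMap_injective _ τ.symm.injective)).mpr h))
  have hqne : ∀ y : LaurentSeries k, y ≠ 0 → qExpand k ℓ y ≠ 0 := fun y h =>
    (map_ne_zero_iff _ (qExpand_injective ℓ)).mpr h
  have hν0 : ι (Hecke.heckeNorm ℚbar N ℓ f) ≠ 0 := by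
    intro h
    have h0 : ν = 0 := by
      rw [hν, ← hι, h]
      rfl
    rw [h0, map_zero, zero_mul] at hid
    refine hqne _ (hTne _ hy₁0) ?_
    rw [← hπn, ModularFunctionField.coeffMap_injective _ Subtype.val_injective
      (hid.symm.trans (map_zero _).symm), map_zero]
  obtain ⟨c, hc, x₁, hx₁, hx₁0⟩ := red.exists_smul_res_ne_zero hν0
  obtain ⟨w₁, w₂, hw₁, hw₂, hw₂0, hw⟩ := hred.exists_quot x₁
  have hwres := hred.res_mul_eq x₁ hw₁ hw₂ hw
  have hw₁0 : coeffMap π w₁ ≠ 0 := hwres ▸ mul_ne_zero (fun h => hx₁0 (Subtype.ext h)) hw₂0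
  rw [hx₁] at hw
  push_cast at hw
  rw [hι, ← hν, Algebra.smul_def, algebraMap_laurentSeries_eq_single, ← HahnSeries.C_apply] at hw
  -- both sides in integral series
  have hkey : HahnSeries.C c * (coeffMap A.subtype (normSeries ℓ u y₁)
        * qExpand ℚbar ℓ (coeffMap A.subtype w₂))
      = coeffMap A.subtype (normSeries ℓ u y₂) * qExpand ℚbar ℓ (coeffMap A.subtype w₁) := by
    rw [← hid, ← hw, map_mul, map_mul, qExpand_C]
    ring
  have hLHS : coeffMap π (normSeries ℓ u y₂ * qExpand A ℓ w₁) ≠ 0 := by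
    rw [map_mul, hπn, ModularFunctionField.coeffMap_qExpand']
    exact mul_ne_zero (hqne _ (hTne _ hy₂0)) (hqne _ hw₁0)
  have hcA : c⁻¹ ∈ A := by
    by_contra h
    have hcm : c ∈ A := (A.mem_or_inv_mem c).resolve_right h
    have hnu : ¬ IsUnit (⟨c, hcm⟩ : A) := by
      rintro ⟨v, hv⟩
      have h1 : ((v : A) : ℚbar) * ((↑v⁻¹ : A) : ℚbar) = 1 := congrArg Subtype.val v.mul_inv
      rw [hv] at h1
      exact h (eq_inv_of_mul_eq_one_right h1 ▸ (↑v⁻¹ : A).2)
    refine hLHS ?_
    have h2 : HahnSeries.C (⟨c, hcm⟩ : A) * (normSeries ℓ u y₁ * qExpand A ℓ w₂)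
        = normSeries ℓ u y₂ * qExpand A ℓ w₁ :=
      ModularFunctionField.coeffMap_injective A.subtype Subtype.val_injective (by
        simp only [map_mul, ModularFunctionField.coeffMap_C,
          ModularFunctionField.coeffMap_qExpand']
        exact hkey)
    rw [← h2, map_mul, ModularFunctionField.coeffMap_C, (red.map_eq_zero_iff _).mpr hnu,
      HahnSeries.C_apply, HahnSeries.single_eq_zero, zero_mul]
  set d : A := ⟨c⁻¹, hcA⟩ with hd
  have hkey' : normSeries ℓ u y₁ * qExpand A ℓ w₂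
      = HahnSeries.C d * (normSeries ℓ u y₂ * qExpand A ℓ w₁) := by
    refine ModularFunctionField.coeffMap_injective A.subtype Subtype.val_injective ?_
    simp only [map_mul, ModularFunctionField.coeffMap_C, ModularFunctionField.coeffMap_qExpand']
    rw [← hkey, ← mul_assoc (HahnSeries.C (A.subtype d)), ← map_mul,
      show A.subtype d * c = 1 from inv_mul_cancel₀ hc, map_one, one_mul]
  refine ⟨⟨_, red.algebraMap_mem d⟩ * x₁, ?_, Subtype.ext ?_⟩
  · show algebraMap ℚbar _ c⁻¹ * (x₁ : modularFunctionFieldBar M) = _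
    rw [hx₁, Algebra.smul_def, ← mul_assoc, ← map_mul, inv_mul_cancel₀ hc, map_one, one_mul]
  · refine mul_right_cancel₀ (hTne _ hy₂0) (qExpand_injective ℓ
      (mul_right_cancel₀ (hqne _ hw₂0) ?_))
    have h := congrArg (coeffMap π) hkey'
    simp only [map_mul, hπn, ModularFunctionField.coeffMap_C,
      ModularFunctionField.coeffMap_qExpand', ← hwres] at h
    have hres' : red.res (⟨_, red.algebraMap_mem d⟩ * x₁)
        = algebraMap k (modularFunctionFieldFullC k M) (π d) * red.res x₁ :=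
      (map_mul _ _ _).trans (congrArg (· * red.res x₁) (red.res_algebraMap d))
    rw [hres']
    push_cast
    rw [coe_coeffAut_smul, coe_coeffAut_inv_smul, ← hTap, ← map_mul T, hres, h,
      algebraMap_laurentSeries_eq_single, ← HahnSeries.C_apply, map_mul, map_mul, qExpand_C]
    ring

end Fermat.Agent.Specialization
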