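import Fermat.Agent.Specialization.Abstract
import Fermat.Agent.Specialization.NormReduction
import Fermat.Agent.GoodReduction.Congruence
import Fermat.Agent.GoodReduction.FromFunctionField
import Fermat.Agent.Hecke.Inputs
import Fermat.Agent.Frobenius.Existence
import Fermat.Agent.GaloisBasics.Place

/-!
# The specialization of `J₀(N)` at a good prime from a good model of an auxiliary level

A good model at a level `M` above `N` gives a reduction of divisor classes of `X₀(N)` which commutes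
with the Galois action on residues and satisfies the Eichler–Shimura congruence.
-/

set_option autoImplicit false

noncomputable section

open AlgebraicCurve ModularCurve
open Fermat.Agent.GoodReduction

namespace Fermat.Agent.Specialization

local notation "ℚbar" => AlgebraicClosure ℚ

theorem scales_correspondence {K F F' : Type*} [Field K] [Field F] [Field F'] [Algebra K F]
    [Algebra K F'] [HasPrincipalDivisors K F'] (φ ψ : F →ₐ[K] F') (hφ : φ.toRingHom.IsIntegral)
    (hψ : ψ.toRingHom.IsIntegral) (hFI : FundamentalIdentityAlong K φ hφ) :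
    Scales (Divisor.correspondence φ ψ hφ hψ) (finrankAlong K φ) := by
  classical
  refine ⟨fun D hD v => ?_, fun D => Divisor.degree_correspondence φ ψ hφ hψ hFI D⟩
  rw [Divisor.correspondence_apply, Finsupp.coe_zero, Pi.zero_apply]
  let := algebraAlong ψ
  have := isScalarTower_along ψ
  have := isIntegral_along ψ hψ
  show 0 ≤ Divisor.pushforward F (Divisor.pullbackAlong φ hφ D) v
  rw [Divisor.pushforward_apply]
  refine Finset.sum_nonneg fun w _ => ?_
  split
  · refine mul_nonneg ?_ (Int.natCast_nonneg _)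
    rw [Divisor.pullbackAlong_apply]
    exact mul_nonneg (Int.natCast_nonneg _) (hD _)
  · exact le_rfl

theorem coeffAut_refl (k : Type*) [Field k] (M : ℕ) :
    coeffAut M (RingEquiv.refl k) = 1 :=
  Subtype.ext (Prod.ext (RingEquiv.ext fun _ => Subtype.ext (coeffMap_id _)) rfl)

/-- The Hecke correspondence multiplies degrees by its degree. -/
theorem scales_heckeDivBar {L : Type*} [Field L] [Algebra ℚ L] {N ℓ : ℕ} [NeZero N] [NeZero ℓ]
    (hα : HeckeAlphaBarIntegral L N ℓ) (hβ : HeckeBetaBarIntegral L N ℓ)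
    [HasPrincipalDivisors L (laurentBaseChange L (modularFunctionFieldFull (N * ℓ)))]
    (hFI : FundamentalIdentityAlong L (heckeBetaBar L N ℓ) hβ) :
    Scales (heckeDivBar hα hβ) (finrankAlong L (heckeBetaBar L N ℓ)) :=
  scales_correspondence _ _ hβ hα hFI

/-- The Hecke generator acts on classes of degree zero through a positive correspondence of
divisors sending the divisor of `f` to the divisor of `N_α (β f)`. -/
theorem exists_heckeGen_smul_eq (N : ℕ) [NeZero N] (hcomm : HeckeOperatorsCommuteBar N) {ℓ : ℕ}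
    [NeZero ℓ] (hℓ : ℓ.Prime) :
    ∃ (T : Divisor ℚbar (modularFunctionFieldBar N) →+ Divisor ℚbar (modularFunctionFieldBar N))
      (b : ℕ), Scales T b ∧
      (∀ (f : modularFunctionFieldBar N) (D : Divisor ℚbar (modularFunctionFieldBar N)),
        f ≠ 0 → (∀ v, D v = v.ord f) → ∀ v, T D v = v.ord (Hecke.heckeNorm ℚbar N ℓ f)) ∧
      ∀ D : Divisor.degZero (K := ℚbar) (F := modularFunctionFieldBar N),
        ∃ h : T (D : Divisor ℚbar (modularFunctionFieldBar N))
            ∈ Divisor.degZero (K := ℚbar) (F := modularFunctionFieldBar N),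
          (letI := heckeModuleBar N; heckeGen ⟨ℓ, hℓ⟩ • (Pic0.mk D : JZero N))
            = Pic0.mk ⟨T (D : Divisor ℚbar (modularFunctionFieldBar N)), h⟩ := by
  obtain ⟨hα, hβ, hP, hfin, hFI, hNF, hop⟩ := Hecke.heckeOperatorAlong_eq_pic0 ℚbar N ℓ
  refine ⟨heckeDivBar hα hβ, _, scales_heckeDivBar hα hβ hFI,
    fun f D hf hD => Hecke.heckeDivBar_principal hα hβ hfin hNF hf hD,
    fun D => ⟨Divisor.correspondence_mem_degZero _ _ hβ hα hFI D.2, ?_⟩⟩
  refine (heckeModuleBar_heckeGen_smul hcomm ⟨ℓ, hℓ⟩ (Pic0.mk D)).trans ?_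
  refine (heckeOperatorBar_apply N ⟨ℓ, hℓ⟩ (Pic0.mk D)).trans ?_
  show heckeOperatorAlong ℚbar N ℓ (Pic0.mk D) = _
  rw [hop]
  exact Pic0.correspondence_mk _ _ hβ hα hFI hfin hNF D

variable {A : ValuationSubring (AlgebraicClosure ℚ)} {M : ℕ} [NeZero M] {g : ℕ} {c : ℤ}
  {H : Divisor ℚbar (modularFunctionFieldBar M)}
  {Hb : Divisor (IsLocalRing.ResidueField A)
    (modularFunctionFieldFullC (IsLocalRing.ResidueField A) M)}
  {red : Reduction (modularFunctionFieldBar M)
    (modularFunctionFieldFullC (IsLocalRing.ResidueField A) M) A (IsLocalRing.residue A)}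

/-- A good model at a multiple level gives the specialization of `J₀(N)` at `A`. -/
theorem exists_specialization_JZero (hred : IsSeriesReduction red) (G : GoodModel red g c H Hb)
    (N p : ℕ) [NeZero N] (hcomm : HeckeOperatorsCommuteBar N)
    (ι : modularFunctionFieldBar N →ₐ[ℚbar] modularFunctionFieldBar M)
    (hι : ∀ f, (ι f : LaurentSeries ℚbar) = (f : LaurentSeries ℚbar))
    (hιint : ι.toRingHom.IsIntegral)
    {ℓ : ℕ} (hℓ : ℓ.Prime) (hNp : ¬ ℓ ∣ N * p) (hA : A.LiesOverPrime ℓ)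
    (hpull : ∀ m : ℕ, ¬ ℓ ∣ m → ∀ D : Divisor ℚbar (modularFunctionFieldBar N),
      Divisor.degree D = 0 → (m • D).IsPrincipal →
      (Divisor.pullbackAlong ι hιint D).IsPrincipal → D.IsPrincipal) :
    letI := heckeModuleBar N
    ∀ (_ : SMulCommClass (ℚbar ≃ₐ[ℚ] ℚbar) HeckeAlg (JZero N)),
      ∃ (J' : Type) (_ : AddCommGroup J') (_ : Module HeckeAlg J') (sp : JZero N →+ J')
        (F : J' →+ J'),
        IsSpecialization (K := ℚ) p (JZero N) J' A ℓ sp F ∧ SpecialFibreRelation J' ℓ hℓ F := by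
  let := heckeModuleBar N
  intro _
  have : NeZero ℓ := ⟨hℓ.ne_zero⟩
  have : CharP (IsLocalRing.ResidueField A) ℓ := GaloisBasics.residueField_charP hA hℓ
  have hN : ¬ ℓ ∣ N := fun h => hNp (h.mul_right p)
  have hp : ¬ ℓ ∣ p := fun h => hNp (h.mul_left N)
  obtain ⟨c₀, hc₀⟩ := exists_riemannData ℚbar (modularFunctionFieldBar N)
  obtain ⟨E₀, hE⟩ := (hc₀ c₀ le_rfl).exists_effectiveUpTo
  have hFI := Hecke.fundamentalIdentityAlong ι hιint
  obtain ⟨σ₀, hσ₀⟩ := Frobenius.exists_isFrobeniusAt hℓ hA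
  set τ := resAut A ⟨σ₀, hσ₀.mem_decompositionSubgroup⟩ with hτ
  have hτap : ∀ a, τ a = a ^ ℓ := resAut_of_isFrobeniusAt A hσ₀
  set s := coeffAut M τ with hs
  -- equivariance under the decomposition group
  have hgal : ∀ (d : A.decompositionSubgroup ℚ) (x : JZero N),
      G.lowerPicMap ι hιint hFI ((d : ℚbar ≃ₐ[ℚ] ℚbar) • x)
        = coeffAut M (resAut A d) • G.lowerPicMap ι hιint hFI x := by
    intro d x
    refine G.lowerPicMap_smul ι hιint hFI hE
      (arithmeticGalois (modularFunctionFieldFull N) (d : ℚbar ≃ₐ[ℚ] ℚbar)) _ (fun f y hy _ => ?_) x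
    obtain ⟨y', hy', hres⟩ := hred.exists_galois_smul d (resAut A d) (fun a => rfl) y
    refine ⟨y', hy'.trans (Subtype.ext ?_), hres⟩
    rw [coe_arithmeticGalois_smul, hι, coe_arithmeticGalois_smul, hy, hι]
  refine exists_specialization hℓ A (G.lowerPicMap ι hιint hFI)
    (DistribSMul.toAddMonoidHom _ s) (DistribSMul.toAddMonoidHom _ s⁻¹)
    (fun r => inv_smul_smul s r) ?_ ⟨σ₀, hσ₀⟩ ?_ ?_ ?_
  · intro σ hσ x
    obtain ⟨d, rfl, hd⟩ := exists_resAut_eq_refl A hσ
    rw [hgal d x, hd, coeffAut_refl, one_smul]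
  · intro σ hσ x
    have hd : resAut A ⟨σ, hσ.mem_decompositionSubgroup⟩ = τ := RingEquiv.ext fun a => by
      rw [resAut_of_isFrobeniusAt A hσ, hτap]
    show _ = s • G.lowerPicMap ι hιint hFI x
    rw [hs, ← hd]
    exact hgal ⟨σ, hσ.mem_decompositionSubgroup⟩ x
  · intro x
    obtain ⟨T, b, hT, hTdiv, hgen⟩ := exists_heckeGen_smul_eq N hcomm hℓ
    obtain ⟨D, rfl⟩ := Pic0.mk_surjective x
    obtain ⟨hTD, hD⟩ := hgen D
    refine (congrArg (fun z => G.lowerPicMap ι hιint hFI z) hD).trans ?_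
    exact G.lowerPicMap_congruence ι hιint hFI hE T hT (Hecke.heckeNorm ℚbar N ℓ) hTdiv s ℓ
      (fun f y hy hy0 => hred.exists_norm_reduction ι hι hℓ hN τ hτap f y hy hy0) D hTD
  · rintro x ⟨n, hn⟩ hx0
    have hndvd : ¬ ℓ ∣ p ^ n := fun h => hp (hℓ.dvd_of_dvd_pow h)
    exact G.lowerPicMap_injOn_torsion ι hιint hFI (hpull _ hndvd)
      (fun h => hndvd ((CharP.cast_eq_zero_iff _ ℓ _).mp h)) hn hx0

end Fermat.Agent.Specialization
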