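import Fermat.Agent.ModularFunctionField.Twist
import Fermat.Prelude.Def_ModularCurve_X0ModL
import Fermat.Prelude.Def_AlgebraicCurve_BaseChangeGalois
import Mathlib.RingTheory.PowerSeries.Expand
import Mathlib.FieldTheory.Perfect

/-!
# Laurent series in positive characteristic

`x ^ p` is the substitution `q ↦ q ^ p` applied to the coefficientwise Frobenius, and coefficient
automorphisms act semilinearly on the special modular function fields.
-/

set_option autoImplicit false

noncomputable section

open HahnSeries ModularCurve AlgebraicCurve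

namespace Fermat.Agent.Specialization

section Frobenius

variable {R : Type*} [CommRing R] (p : ℕ) [NeZero p]

theorem qExpand_ofPowerSeries (u : PowerSeries R) :
    qExpand R p (HahnSeries.ofPowerSeries ℤ R u)
      = HahnSeries.ofPowerSeries ℤ R (u.expand p (NeZero.ne p)) := by
  ext k
  by_cases hk : (p : ℤ) ∣ k
  · obtain ⟨m, rfl⟩ := hk
    rw [qExpand_coeff_mul]
    rcases le_or_gt 0 m with hm | hm
    · lift m to ℕ using hm
      rw [show (p : ℤ) * m = ((p * m : ℕ) : ℤ) by push_cast; ring,
        HahnSeries.ofPowerSeries_apply_coeff, HahnSeries.ofPowerSeries_apply_coeff,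
        PowerSeries.coeff_expand_mul]
    · rw [ofPowerSeries_coeff_of_neg _ hm, ofPowerSeries_coeff_of_neg _
        (mul_neg_of_pos_of_neg (by exact_mod_cast NeZero.pos p) hm)]
  · rw [qExpand_coeff_of_not_dvd p _ hk]
    rcases le_or_gt 0 k with hk0 | hk0
    · lift k to ℕ using hk0
      rw [HahnSeries.ofPowerSeries_apply_coeff,
        PowerSeries.coeff_expand_of_not_dvd _ _ _ (fun h => hk (Int.natCast_dvd_natCast.mpr h))]
    · rw [ofPowerSeries_coeff_of_neg _ hk0]

variable [ExpChar R p]

/-- `x ^ p = qExpand p (Frobenius x)` in characteristic `p`. -/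
theorem pow_char_eq_qExpand (x : LaurentSeries R) :
    x ^ p = qExpand R p (coeffMap (frobenius R p) x) := by
  conv_lhs => rw [← LaurentSeries.single_order_mul_powerSeriesPart x]
  conv_rhs => rw [← LaurentSeries.single_order_mul_powerSeriesPart x]
  rw [mul_pow, HahnSeries.single_pow, one_pow, map_mul, map_mul, coeffMap_single,
    RingHom.map_one (frobenius R p), qExpand_single, coeffMap_ofPowerSeries, qExpand_ofPowerSeries, ← map_pow]
  have hexp : (x.powerSeriesPart.map (frobenius R p)).expand p (NeZero.ne p)
      = x.powerSeriesPart ^ p := by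
    rw [← PowerSeries.map_expand]
    exact MvPowerSeries.map_frobenius_expand p (NeZero.ne p)
  rw [hexp, nsmul_eq_mul]

end Frobenius

section SemilinearAutomorphism

variable {k : Type*} [Field k] (M : ℕ) (τ : k ≃+* k)

theorem coeffMap_mem_fullC (τ : k →+* k) {x : LaurentSeries k}
    (hx : x ∈ modularFunctionFieldFullC k M) :
    coeffMap τ x ∈ modularFunctionFieldFullC k M := by
  induction hx using IntermediateField.adjoin_induction k with
  | mem z hz =>
    obtain ⟨d, hd0, hd, rfl⟩ := hz
    rw [ModularFunctionField.coeffMap_qExpand', coeffMap_jqModC]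
    exact @jqModCd_mem_full k _ M d hd0 hd
  | algebraMap r =>
    rw [algebraMap_laurentSeries_eq_single, coeffMap_single,
      ← algebraMap_laurentSeries_eq_single]
    exact IntermediateField.algebraMap_mem _ _
  | add a b _ _ ha hb => rw [map_add]; exact add_mem ha hb
  | inv a _ ha => rw [map_inv₀]; exact inv_mem ha
  | mul a b _ _ ha hb => rw [map_mul]; exact mul_mem ha hb

/-- A coefficient automorphism of the special modular function field. -/
def coeffAut : SemilinearAut k (modularFunctionFieldFullC k M) :=
  ⟨({ toFun := fun x => ⟨coeffMap τ.toRingHom x, coeffMap_mem_fullC M τ.toRingHom x.2⟩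
      invFun := fun x => ⟨coeffMap τ.symm.toRingHom x, coeffMap_mem_fullC M τ.symm.toRingHom x.2⟩
      left_inv := fun x => Subtype.ext <| by
        ext n
        simp
      right_inv := fun x => Subtype.ext <| by
        ext n
        simp
      map_mul' := fun x y => Subtype.ext
        (map_mul (coeffMap τ.toRingHom) (x : LaurentSeries k) (y : LaurentSeries k))
      map_add' := fun x y => Subtype.ext
        (map_add (coeffMap τ.toRingHom) (x : LaurentSeries k) (y : LaurentSeries k)) }, τ),
    fun a => Subtype.ext (by
      show coeffMap τ.toRingHom (algebraMap k (LaurentSeries k) a)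
        = algebraMap k (LaurentSeries k) (τ a)
      exact coeffMap_algebraMap τ.toRingHom a)⟩

/-- `coeffAut` acts on expansions coefficientwise. -/
theorem coe_coeffAut_smul (x : modularFunctionFieldFullC k M) :
    ((coeffAut M τ • x : modularFunctionFieldFullC k M) : LaurentSeries k)
      = coeffMap τ.toRingHom (x : LaurentSeries k) :=
  rfl

/-- Its inverse acts by the inverse automorphism. -/
theorem coe_coeffAut_inv_smul (x : modularFunctionFieldFullC k M) :
    (((coeffAut M τ)⁻¹ • x : modularFunctionFieldFullC k M) : LaurentSeries k)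
      = coeffMap τ.symm.toRingHom (x : LaurentSeries k) :=
  rfl

/-- The special fibre form of `N_α(β f) ↦ φ f · (φ⁻¹ f)^ℓ`: comparing after `q ↦ q^ℓ`. -/
theorem qExpand_frobenius_identity (ℓ : ℕ) [NeZero ℓ] [ExpChar k ℓ]
    (hτ : ∀ a, τ a = a ^ ℓ) (y : LaurentSeries k) :
    qExpand k ℓ (coeffMap τ.toRingHom y * coeffMap τ.symm.toRingHom y ^ ℓ)
      = qExpand k (ℓ * ℓ) y * y ^ ℓ := by
  have h1 : coeffMap (frobenius k ℓ) y = coeffMap τ.toRingHom y :=
    coeffMap_congr (RingHom.ext fun a => (hτ a).symm) y
  have h2 : coeffMap (frobenius k ℓ) (coeffMap τ.symm.toRingHom y) = y := by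
    ext n
    simp [frobenius_def, ← hτ]
  rw [map_mul, pow_char_eq_qExpand ℓ (coeffMap τ.symm.toRingHom y), h2, qExpand_qExpand,
    pow_char_eq_qExpand ℓ y, h1, mul_comm]

end SemilinearAutomorphism

end Fermat.Agent.Specialization
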