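import Fermat.Agent.Specialization.OfModel
import Fermat.Agent.GoodReductionS18.Model.Fibres
import Fermat.Agent.GaloisBasics.ResidueField

/-!
# Specializations of `J₀(N)` exist at all good primes

For `ℓ ∤ N` the auxiliary level `lcm (N, 2)`, or `lcm (N, 3)` if `ℓ = 2`, has a good Gauss model at
every place over `ℓ`, which gives `SpecializationExists` for the Hecke module `J₀(N)`.
-/

set_option autoImplicit false

noncomputable section

open ModularCurve

namespace Fermat.Agent.Specialization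

local notation "ℚbar" => AlgebraicClosure ℚ

/-- The auxiliary level has a good model. -/
theorem hasGaussModel_auxLevel (N ℓ : ℕ) [NeZero N] (hℓ : ℓ.Prime) (hN : ¬ ℓ ∣ N)
    (A : ValuationSubring (AlgebraicClosure ℚ)) (hA : A.LiesOverPrime ℓ) :
    HasGaussModel A (auxLevel N ℓ) := by
  have : CharP (IsLocalRing.ResidueField A) ℓ := GaloisBasics.residueField_charP hA hℓ
  have : IsAlgClosed (IsLocalRing.ResidueField A) := GaloisBasics.residueField_isAlgClosed A
  obtain ⟨h, hh, hℓh, hM⟩ : ∃ h, (h = 2 ∨ h = 3) ∧ ¬ ℓ ∣ h ∧ auxLevel N ℓ = N.lcm h := by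
    unfold auxLevel
    split
    · rename_i h2
      exact ⟨3, .inr rfl, h2 ▸ (by norm_num), rfl⟩
    · rename_i h2
      exact ⟨2, .inl rfl, fun h => h2 ((Nat.prime_dvd_prime_iff_eq hℓ Nat.prime_two).mp h), rfl⟩
  have : NeZero h := ⟨by rcases hh with rfl | rfl <;> norm_num⟩
  have hMℓ : ¬ ℓ ∣ auxLevel N ℓ := fun hd => by
    rw [hM] at hd
    exact (hℓ.dvd_mul.mp (hd.trans (Nat.lcm_dvd_mul N h))).elim hN hℓh
  have hMk : ((auxLevel N ℓ : ℕ) : IsLocalRing.ResidueField A) ≠ 0 := fun h0 =>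
    hMℓ ((CharP.cast_eq_zero_iff _ ℓ _).mp h0)
  obtain ⟨H, g, c, Hd, Hb, G⟩ := GoodReductionS18.hasGoodModel hh
    (hM ▸ Nat.dvd_lcm_right N h) hMk IsLocalRing.residue_surjective
    (GoodReductionS18.hauptFibres h (auxLevel N ℓ) hh)
  exact ⟨H, g, c, Hd, Hb, G⟩

/-- Specializations of `J₀(N)` exist at all good primes. -/
theorem specializationExists (N p : ℕ) [NeZero N] (hcomm : HeckeOperatorsCommuteBar N) :
    letI := heckeModuleBar N
    ∀ (_ : SMulCommClass (ℚbar ≃ₐ[ℚ] ℚbar) HeckeAlg (JZero N)),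
      SpecializationExists (K := ℚ) (L := ℚbar) N p (JZero N) :=
  specializationExists_of_models N p hcomm fun ℓ hℓ hN A hA => hasGaussModel_auxLevel N ℓ hℓ hN A hA

end Fermat.Agent.Specialization
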