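import Fermat.Agent.Specialization.ResidueAction
import Fermat.Agent.GoodReduction.Reduction
import Fermat.Prelude.Def_ModularCurve_ArithmeticGalois

/-!
# Reductions of modular function fields given by integral `q`-expansions

For such a reduction the residue of a quotient of integral series is the quotient of the reduced
series, and the decomposition group acts on residues through the coefficients.
-/

set_option autoImplicit false

noncomputable section

open AlgebraicCurve ModularCurve

namespace Fermat.Agent.Specialization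

local notation "ℚbar" => AlgebraicClosure ℚ

variable {A : ValuationSubring (AlgebraicClosure ℚ)} {M : ℕ} {k : Type*} [Field k] {π : A →+* k}

/-- The reduction is reduction of integral `q`-expansions: every element with integral expansion
is integral and reduces coefficientwise, and every integral element is a quotient of two such
with nonzero reduced denominator. -/
structure IsSeriesReduction (red : GoodReduction.Reduction (modularFunctionFieldBar M)
    (modularFunctionFieldFullC k M) A π) : Prop where
  res_series : ∀ (y : LaurentSeries A) (f : modularFunctionFieldBar M),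
    (f : LaurentSeries ℚbar) = coeffMap A.subtype y →
      ∃ x : red.V, (x : modularFunctionFieldBar M) = f ∧
        (red.res x : LaurentSeries k) = coeffMap π y
  exists_quot : ∀ x : red.V, ∃ y₁ y₂ : LaurentSeries A,
    coeffMap A.subtype y₁ ∈ modularFunctionFieldBar M ∧
    coeffMap A.subtype y₂ ∈ modularFunctionFieldBar M ∧
    coeffMap π y₂ ≠ 0 ∧
    ((x : modularFunctionFieldBar M) : LaurentSeries ℚbar) * coeffMap A.subtype y₂
      = coeffMap A.subtype y₁

namespace IsSeriesReduction

variable {red : GoodReduction.Reduction (modularFunctionFieldBar M)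
  (modularFunctionFieldFullC k M) A π} (hred : IsSeriesReduction red)

include hred

/-- The residue of a quotient of integral series. -/
theorem res_mul_eq (x : red.V) {y₁ y₂ : LaurentSeries A}
    (h₁ : coeffMap A.subtype y₁ ∈ modularFunctionFieldBar M)
    (h₂ : coeffMap A.subtype y₂ ∈ modularFunctionFieldBar M)
    (h : ((x : modularFunctionFieldBar M) : LaurentSeries ℚbar) * coeffMap A.subtype y₂
      = coeffMap A.subtype y₁) :
    (red.res x : LaurentSeries k)
        * coeffMap π y₂
      = coeffMap π y₁ := by
  obtain ⟨z₁, hz₁, hr₁⟩ := hred.res_series y₁ ⟨_, h₁⟩ rfl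
  obtain ⟨z₂, hz₂, hr₂⟩ := hred.res_series y₂ ⟨_, h₂⟩ rfl
  have hxz : x * z₂ = z₁ := by
    refine Subtype.ext (Subtype.ext ?_)
    push_cast
    rw [hz₁, hz₂]
    exact h
  rw [← hr₁, ← hr₂, ← hxz, map_mul]
  rfl

/-- The decomposition group preserves the reduction and acts on residues through coefficients. -/
theorem exists_galois_smul (s : A.decompositionSubgroup ℚ) (τ : k ≃+* k)
    (hτ : ∀ a : A, τ (π a) = π (s • a)) (x : red.V) :
    ∃ x' : red.V,
      (x' : modularFunctionFieldBar M)
        = arithmeticGalois (modularFunctionFieldFull M) (s : ℚbar ≃ₐ[ℚ] ℚbar)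
            • (x : modularFunctionFieldBar M) ∧
      red.res x' = coeffAut M τ • red.res x := by
  obtain ⟨y₁, y₂, h₁, h₂, hy₂, h⟩ := hred.exists_quot x
  set σ : ℚbar ≃ₐ[ℚ] ℚbar := (s : ℚbar ≃ₐ[ℚ] ℚbar) with hσ
  have hmem : ∀ y : LaurentSeries A, coeffMap A.subtype y ∈ modularFunctionFieldBar M →
      coeffMap A.subtype (seriesAct A s y) ∈ modularFunctionFieldBar M := fun y hy => by
    rw [coeffMap_subtype_seriesAct]
    exact coeffMap_mem_laurentBaseChange σ hy
  obtain ⟨z₁, hz₁, hr₁⟩ := hred.res_series (seriesAct A s y₁) ⟨_, hmem y₁ h₁⟩ rfl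
  obtain ⟨z₂, hz₂, hr₂⟩ := hred.res_series (seriesAct A s y₂) ⟨_, hmem y₂ h₂⟩ rfl
  have hact : ∀ y : LaurentSeries A,
      coeffMap π (seriesAct A s y) = coeffMap τ.toRingHom (coeffMap π y) := fun y => by
    ext n
    exact (hτ (y.coeff n)).symm
  rw [hact] at hr₁ hr₂
  have hne : red.res z₂ ≠ 0 := by
    intro h0
    rw [h0] at hr₂
    exact hy₂ ((map_eq_zero_iff _
      (ModularFunctionField.coeffMap_injective _ τ.injective)).mp hr₂.symm)
  have hz₂0 := red.coe_ne_zero hne
  have hσx : (arithmeticGalois (modularFunctionFieldFull M) σ • (x : modularFunctionFieldBar M))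
      * (z₂ : modularFunctionFieldBar M) = (z₁ : modularFunctionFieldBar M) := by
    rw [hz₁, hz₂]
    refine Subtype.ext ?_
    push_cast
    rw [coe_arithmeticGalois_smul, coeffMap_subtype_seriesAct, coeffMap_subtype_seriesAct,
      ← map_mul, h]
  have hV : arithmeticGalois (modularFunctionFieldFull M) σ • (x : modularFunctionFieldBar M)
      ∈ red.V := by
    rw [(eq_mul_inv_iff_mul_eq₀ hz₂0).mpr hσx]
    exact mul_mem z₁.2 (red.inv_mem hne)
  refine ⟨⟨_, hV⟩, rfl, mul_right_cancel₀ hne ?_⟩
  have hprod : (⟨_, hV⟩ : red.V) * z₂ = z₁ := Subtype.ext hσx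
  rw [← map_mul, hprod]
  refine Subtype.ext ?_
  push_cast
  rw [coe_coeffAut_smul, hr₁, hr₂, ← map_mul, hred.res_mul_eq x h₁ h₂ h]

end IsSeriesReduction

end Fermat.Agent.Specialization
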