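import Fermat.Agent.GoodReductionModular.Gauss
import Fermat.Agent.Specialization.SeriesModel

/-!
# The Gauss reduction is a reduction of integral `q`-expansions

On a modular function field with a Gauss model, a function with integral expansion reduces to the
function whose expansion is the coefficientwise reduction.
-/

set_option autoImplicit false

noncomputable section

open ModularCurve Fermat.Agent.GoodReductionModular

namespace Fermat.Agent.Specialization

/-- The Gauss reduction reduces integral expansions coefficientwise. -/
theorem isSeriesReduction_gauss {A : ValuationSubring (AlgebraicClosure ℚ)} {M : ℕ} {k : Type*}
    [Field k] {π : A →+* k}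
    (H : GaussInput (modularFunctionFieldBar M) (modularFunctionFieldFullC k M) π) :
    IsSeriesReduction (gaussReduction H) where
  res_series y f hf := by
    have hy : liftK A y ∈ modularFunctionFieldBar M := by
      rw [liftK, ← hf]
      exact f.2
    exact ⟨⟨⟨liftK A y, hy⟩, liftK_mem_gaussReduction H hy⟩, Subtype.ext hf.symm,
      gaussReduction_res_liftK H hy⟩
  exists_quot := exists_gaussReduction_quotient H

end Fermat.Agent.Specialization
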