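import Fermat.Prelude.Def_ModularCurve_HeckeModule

/-!
# From a congruence relation on a reduction to a specialization

A single homomorphism `red` out of `J` which is inertia invariant, semilinear for Frobenius,
injective on `p`-power torsion and satisfies `red (T x) = φ (red x) + ℓ ψ (red x)` (with
`ψ ∘ φ = id`) gives the packaged specialization: the quotient of `J` by the largest Hecke-stable
subgroup killed by `red`.
-/

set_option autoImplicit false

noncomputable section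

open ModularCurve

namespace Fermat.Agent.Specialization

variable {K L : Type*} [Field K] [Field L] [Algebra K L]
variable {J : Type} [AddCommGroup J] [Module HeckeAlg J]
  [DistribMulAction (L ≃ₐ[K] L) J] [SMulCommClass (L ≃ₐ[K] L) HeckeAlg J]

/-- The largest Hecke-stable subgroup killed by `red`. -/
def heckeCore {P : Type*} [AddCommGroup P] (red : J →+ P) : Submodule HeckeAlg J where
  carrier := {x | ∀ t : HeckeAlg, red (t • x) = 0}
  zero_mem' t := by rw [smul_zero, map_zero]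
  add_mem' {a b} ha hb t := by rw [smul_add, map_add, ha t, hb t, add_zero]
  smul_mem' c x hx t := by rw [smul_smul]; exact hx _

/-- The specialization built from a reduction satisfying the congruence relation. -/
theorem exists_specialization {p ℓ : ℕ} (hℓ : ℓ.Prime) (A : ValuationSubring L) {P : Type*}
    [AddCommGroup P] (red : J →+ P) (φ ψ : P →+ P) (hψφ : ∀ r, ψ (φ r) = r)
    (hI : ∀ σ ∈ A.inertiaSubgroupIn K, ∀ x, red (σ • x) = red x)
    (hex : ∃ σ : L ≃ₐ[K] L, A.IsFrobeniusAt σ ℓ)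
    (hF : ∀ σ : L ≃ₐ[K] L, A.IsFrobeniusAt σ ℓ → ∀ x, red (σ • x) = φ (red x))
    (hT : ∀ x, red (heckeGen ⟨ℓ, hℓ⟩ • x) = φ (red x) + ℓ • ψ (red x))
    (hinj : ∀ x : J, (∃ n : ℕ, p ^ n • x = 0) → red x = 0 → x = 0) :
    ∃ (J' : Type) (_ : AddCommGroup J') (_ : Module HeckeAlg J') (sp : J →+ J')
      (F : J' →+ J'),
      IsSpecialization (K := K) p J J' A ℓ sp F ∧ SpecialFibreRelation J' ℓ hℓ F := by
  obtain ⟨σ₀, hσ₀⟩ := hex
  let M := heckeCore red
  have hmem : ∀ (σ : L ≃ₐ[K] L) (t : HeckeAlg) (x : J), t • (σ • x) = σ • (t • x) :=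
    fun σ t x => (smul_comm σ t x).symm
  let sig : J →ₗ[HeckeAlg] J :=
    { toFun := fun x => σ₀ • x
      map_add' := fun x y => smul_add σ₀ x y
      map_smul' := fun t x => smul_comm σ₀ t x }
  have hM : M ≤ M.comap sig := fun x hx t => by
    show red (t • (σ₀ • x)) = 0
    rw [hmem, hF σ₀ hσ₀, hx t, map_zero]
  let F : (J ⧸ M) →ₗ[HeckeAlg] (J ⧸ M) := M.mapQ M sig hM
  refine ⟨J ⧸ M, inferInstance, inferInstance, M.mkQ.toAddMonoidHom, F.toAddMonoidHom,
    ⟨fun T x => M.mkQ.map_smul T x, ?_, ?_, ?_⟩, ?_⟩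
  · intro σ hσ x
    refine (Submodule.Quotient.eq M).mpr fun t => ?_
    rw [smul_sub, map_sub, hmem, hI σ hσ, sub_self]
  · intro σ hσ x
    refine (Submodule.Quotient.eq M).mpr fun t => ?_
    show red (t • (σ • x - σ₀ • x)) = 0
    rw [smul_sub, map_sub, hmem, hmem, hF σ hσ, hF σ₀ hσ₀, sub_self]
  · intro x hx hx0
    refine hinj x hx ?_
    have h := (Submodule.Quotient.mk_eq_zero M).mp hx0 1
    rwa [one_smul] at h
  · intro y
    obtain ⟨x, rfl⟩ := M.mkQ_surjective y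
    show F (F (M.mkQ x)) - heckeGen ⟨ℓ, hℓ⟩ • F (M.mkQ x) + ℓ • M.mkQ x = 0
    have hFx : ∀ z : J, F (M.mkQ z) = M.mkQ (σ₀ • z) := fun z => rfl
    rw [hFx, hFx, ← M.mkQ.map_smul, ← map_sub, ← map_nsmul, ← map_add, Submodule.mkQ_apply,
      Submodule.Quotient.mk_eq_zero]
    intro t
    have ht : t • (σ₀ • σ₀ • x - heckeGen ⟨ℓ, hℓ⟩ • σ₀ • x + ℓ • x)
        = σ₀ • σ₀ • (t • x) - heckeGen ⟨ℓ, hℓ⟩ • (σ₀ • (t • x)) + ℓ • (t • x) := by
      rw [smul_add, smul_sub, hmem, hmem, smul_comm t (heckeGen ⟨ℓ, hℓ⟩) (σ₀ • x), hmem,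
        smul_comm t ℓ x]
    rw [ht, map_add, map_sub, map_nsmul, hT, hF σ₀ hσ₀, hF σ₀ hσ₀, hψφ]
    abel

end Fermat.Agent.Specialization
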