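import Fermat.Agent.Specialization.JZero
import Fermat.Agent.Specialization.Gauss
import Fermat.Agent.GoodReductionS18.PullbackInjective

/-!
# Specializations from Gauss good models at the auxiliary levels `lcm (N, 2)`, `lcm (N, 3)`

The inclusion of the function field of level `N` in that of the auxiliary level transports a good
model there to a specialization of `J₀(N)`.
-/

set_option autoImplicit false

noncomputable section

open AlgebraicCurve ModularCurve Fermat.Agent.GoodReduction Fermat.Agent.GoodReductionModular

namespace Fermat.Agent.Specialization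

local notation "ℚbar" => AlgebraicClosure ℚ

/-- A good Gauss model of the modular function field of level `M` at the place `A`. -/
def HasGaussModel (A : ValuationSubring (AlgebraicClosure ℚ)) (M : ℕ) : Prop :=
  ∃ H : GaussInput (modularFunctionFieldBar M)
      (modularFunctionFieldFullC (IsLocalRing.ResidueField A) M) (IsLocalRing.residue A),
    ∃ (g : ℕ) (c : ℤ) (Hd : Divisor ℚbar (modularFunctionFieldBar M))
      (Hb : Divisor (IsLocalRing.ResidueField A)
        (modularFunctionFieldFullC (IsLocalRing.ResidueField A) M)),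
      GoodModel (gaussReduction H) g c Hd Hb

/-- The auxiliary level at the residue characteristic `ℓ`. -/
def auxLevel (N ℓ : ℕ) : ℕ := if ℓ = 2 then N.lcm 3 else N.lcm 2

instance instNeZeroAuxLevel (N ℓ : ℕ) [NeZero N] : NeZero (auxLevel N ℓ) := ⟨by
  unfold auxLevel
  split <;> exact Nat.lcm_ne_zero (NeZero.ne N) (by norm_num)⟩

/-- `N` divides the auxiliary level. -/
theorem dvd_auxLevel (N ℓ : ℕ) : N ∣ auxLevel N ℓ := by
  unfold auxLevel
  split <;> exact Nat.dvd_lcm_left _ _

/-- The step to the auxiliary level is tame away from `ℓ`. -/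
theorem tameStep_auxLevel (N ℓ m : ℕ) (hm : ¬ ℓ ∣ m) :
    GoodReductionS18.TameStep N (auxLevel N ℓ) m := by
  unfold auxLevel
  split
  · rename_i h
    exact GoodReductionS18.tameStep_lcm_three N m (h ▸ hm)
  · exact GoodReductionS18.tameStep_lcm_two N m

/-- `SpecializationExists` from good models at the auxiliary levels. -/
theorem specializationExists_of_models (N p : ℕ) [NeZero N] (hcomm : HeckeOperatorsCommuteBar N)
    (hmodel : ∀ ℓ : ℕ, ℓ.Prime → ¬ ℓ ∣ N → ∀ A : ValuationSubring (AlgebraicClosure ℚ),
      A.LiesOverPrime ℓ → HasGaussModel A (auxLevel N ℓ)) :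
    letI := heckeModuleBar N
    ∀ (_ : SMulCommClass (ℚbar ≃ₐ[ℚ] ℚbar) HeckeAlg (JZero N)),
      SpecializationExists (K := ℚ) (L := ℚbar) N p (JZero N) := by
  let := heckeModuleBar N
  intro hsc ℓ hℓ hNp A hA
  obtain ⟨H, g, c, Hd, Hb, G⟩ := hmodel ℓ hℓ (fun h => hNp (h.mul_right p)) A hA
  have hle : modularFunctionFieldBar N ≤ modularFunctionFieldBar (auxLevel N ℓ) :=
    IntermediateField.adjoin.mono _ _ _ (Set.image_mono (full_degeneracy_le (dvd_auxLevel N ℓ)))
  have hι := Hecke.isIntegral_of_isFunctionField (IntermediateField.inclusion hle)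
  exact exists_specialization_JZero (isSeriesReduction_gauss H) G N p hcomm
    (IntermediateField.inclusion hle) (fun f => IntermediateField.coe_inclusion hle f) hι hℓ hNp hA
    (fun m hm D _ hmD hD => GoodReductionS18.isPrincipal_of_pullbackAlong_tame ℚbar
      (tameStep_auxLevel N ℓ m hm) (fun h => hm (h ▸ dvd_zero ℓ)) (IntermediateField.inclusion hle)
      hι (fun f => IntermediateField.coe_inclusion hle f) D hmD hD) hsc

end Fermat.Agent.Specialization
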