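import Fermat.Agent.Specialization.Series
import Fermat.Prelude.Def_FLTPrelim_Ramification
import Fermat.Prelude.Def_EllipticCurve_FrobeniusTrace

/-!
# The action of the decomposition group on residues and on integral Laurent series

An element of the decomposition group of a valuation subring induces an automorphism of the residue
field, trivial on inertia and the Frobenius for Frobenius elements, and acts coefficientwise.
-/

set_option autoImplicit false

noncomputable section

open ModularCurve

namespace Fermat.Agent.Specialization

variable {K L : Type*} [Field K] [Field L] [Algebra K L]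
variable (A : ValuationSubring L)

/-- The automorphism of the residue field induced by an element of the decomposition group. -/
def resAut (σ : A.decompositionSubgroup K) :
    IsLocalRing.ResidueField A ≃+* IsLocalRing.ResidueField A :=
  MulSemiringAction.toRingAut (A.decompositionSubgroup K) (IsLocalRing.ResidueField A) σ

/-- Inertia acts trivially on the residue field. -/
theorem exists_resAut_eq_refl {σ : L ≃ₐ[K] L} (hσ : σ ∈ A.inertiaSubgroupIn K) :
    ∃ s : A.decompositionSubgroup K, (s : L ≃ₐ[K] L) = σ ∧
      resAut A s = RingEquiv.refl _ := by
  obtain ⟨s, hs, rfl⟩ := Subgroup.mem_map.mp hσ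
  exact ⟨s, rfl, MonoidHom.mem_ker.mp hs⟩

/-- Frobenius elements induce the Frobenius of the residue field. -/
theorem resAut_of_isFrobeniusAt {σ : L ≃ₐ[K] L} {q : ℕ} (h : A.IsFrobeniusAt σ q)
    (x : IsLocalRing.ResidueField A) :
    resAut A ⟨σ, h.mem_decompositionSubgroup⟩ x = x ^ q :=
  h.smul_residue_eq x

/-- An element of the decomposition group on integral Laurent series. -/
def seriesAct (s : A.decompositionSubgroup K) : LaurentSeries A →+* LaurentSeries A :=
  coeffMap (MulSemiringAction.toRingHom (A.decompositionSubgroup K) A s)

/-- `seriesAct` is the restriction of the coefficientwise action. -/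
theorem coeffMap_subtype_seriesAct (s : A.decompositionSubgroup K) (y : LaurentSeries A) :
    coeffMap A.subtype (seriesAct A s y)
      = coeffMap ((s : L ≃ₐ[K] L) : L →+* L) (coeffMap A.subtype y) := by
  ext n
  rfl

end Fermat.Agent.Specialization
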